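/-
The section `GL₂(𝔽₃) → GL₂(ℤ[√-2])` of reduction and its complex realisation (the octahedral lift).
-/
import Mathlib
import Fermat.Prelude.Def_LanglandsTunnell_ExplicitLift

set_option autoImplicit false

open Matrix FLT.ExplicitLift
open scoped MatrixGroups

noncomputable section

namespace Fermat.Agent.LT

/-- A 2 by 2 matrix stored by its entries, row by row. -/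
structure Quad where
  /-- entry (0,0) -/
  e00 : ℤ√(-2)
  /-- entry (0,1) -/
  e01 : ℤ√(-2)
  /-- entry (1,0) -/
  e10 : ℤ√(-2)
  /-- entry (1,1) -/
  e11 : ℤ√(-2)
  deriving DecidableEq

/-- The product of two stored matrices. -/
def Quad.mulQ (A B : Quad) : Quad :=
  ⟨A.e00 * B.e00 + A.e01 * B.e10, A.e00 * B.e01 + A.e01 * B.e11,
    A.e10 * B.e00 + A.e11 * B.e10, A.e10 * B.e01 + A.e11 * B.e11⟩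

/-- The matrix stored in a `Quad`. -/
def Quad.toMat (A : Quad) : Matrix (Fin 2) (Fin 2) (ℤ√(-2)) := !![A.e00, A.e01; A.e10, A.e11]

theorem Quad.toMat_mulQ (A B : Quad) : (A.mulQ B).toMat = A.toMat * B.toMat := by
  simp [Quad.toMat, Quad.mulQ, Matrix.mul_fin_two]

/-- The zero matrix. -/
def q0 : Quad := ⟨0, 0, 0, 0⟩

/-- The lifts, indexed by the base 3 code of the entries. -/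
def liftTable : List Quad :=
  [ q0, q0, q0,
    q0, q0, q0,
    q0, q0, q0,
    q0, q0, q0,
    ⟨⟨-1, -1⟩, ⟨-1, 1⟩, ⟨-2, 0⟩, ⟨1, 1⟩⟩, ⟨⟨0, 0⟩, ⟨1, 0⟩, ⟨1, 0⟩, ⟨0, -1⟩⟩, ⟨⟨1, 1⟩, ⟨0, -1⟩, ⟨1, 0⟩, ⟨-1, 0⟩⟩,
    ⟨⟨1, 1⟩, ⟨0, -1⟩, ⟨2, 0⟩, ⟨-1, -1⟩⟩, ⟨⟨0, 0⟩, ⟨1, 0⟩, ⟨-1, 0⟩, ⟨1, 0⟩⟩, ⟨⟨-1, -1⟩, ⟨-1, 1⟩, ⟨-1, 0⟩, ⟨0, 1⟩⟩,
    q0, q0, q0,
    ⟨⟨-1, -1⟩, ⟨0, 1⟩, ⟨-2, 0⟩, ⟨1, 1⟩⟩, ⟨⟨1, 1⟩, ⟨1, -1⟩, ⟨1, 0⟩, ⟨0, -1⟩⟩, ⟨⟨0, 0⟩, ⟨-1, 0⟩, ⟨1, 0⟩, ⟨-1, 0⟩⟩,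
    ⟨⟨1, 1⟩, ⟨1, -1⟩, ⟨2, 0⟩, ⟨-1, -1⟩⟩, ⟨⟨-1, -1⟩, ⟨0, 1⟩, ⟨-1, 0⟩, ⟨1, 0⟩⟩, ⟨⟨0, 0⟩, ⟨-1, 0⟩, ⟨-1, 0⟩, ⟨0, 1⟩⟩,
    q0, ⟨⟨1, 0⟩, ⟨0, 0⟩, ⟨0, 0⟩, ⟨1, 0⟩⟩, ⟨⟨1, 0⟩, ⟨-1, -1⟩, ⟨0, 0⟩, ⟨-1, 0⟩⟩,
    q0, ⟨⟨-2, 0⟩, ⟨1, 1⟩, ⟨-1, 1⟩, ⟨1, 0⟩⟩, ⟨⟨-2, 0⟩, ⟨1, 1⟩, ⟨-1, 1⟩, ⟨2, 0⟩⟩,
    q0, ⟨⟨1, 0⟩, ⟨-1, -1⟩, ⟨1, -1⟩, ⟨-2, 0⟩⟩, ⟨⟨1, 0⟩, ⟨0, 0⟩, ⟨1, -1⟩, ⟨-1, 0⟩⟩,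
    q0, ⟨⟨-1, 1⟩, ⟨1, 0⟩, ⟨1, 1⟩, ⟨0, -1⟩⟩, ⟨⟨0, -1⟩, ⟨-1, 1⟩, ⟨-1, -1⟩, ⟨0, 1⟩⟩,
    ⟨⟨1, 0⟩, ⟨0, -1⟩, ⟨1, 0⟩, ⟨-1, -1⟩⟩, q0, ⟨⟨1, 0⟩, ⟨0, -1⟩, ⟨0, -1⟩, ⟨-1, 0⟩⟩,
    ⟨⟨0, -1⟩, ⟨-1, 1⟩, ⟨-1, 0⟩, ⟨1, 1⟩⟩, ⟨⟨-1, 1⟩, ⟨1, 0⟩, ⟨0, 1⟩, ⟨1, 0⟩⟩, q0,
    q0, ⟨⟨0, -1⟩, ⟨-1, 0⟩, ⟨-1, -1⟩, ⟨-1, 1⟩⟩, ⟨⟨-1, 1⟩, ⟨2, 0⟩, ⟨1, 1⟩, ⟨1, -1⟩⟩,
    ⟨⟨1, 0⟩, ⟨-1, 0⟩, ⟨1, 0⟩, ⟨0, 0⟩⟩, ⟨⟨1, 0⟩, ⟨-1, 0⟩, ⟨0, -1⟩, ⟨-1, 1⟩⟩, q0,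
    ⟨⟨0, -1⟩, ⟨-1, 0⟩, ⟨-1, 0⟩, ⟨0, 0⟩⟩, q0, ⟨⟨-1, 1⟩, ⟨2, 0⟩, ⟨0, 1⟩, ⟨1, -1⟩⟩,
    q0, ⟨⟨-1, 0⟩, ⟨1, 1⟩, ⟨0, 0⟩, ⟨1, 0⟩⟩, ⟨⟨-1, 0⟩, ⟨0, 0⟩, ⟨0, 0⟩, ⟨-1, 0⟩⟩,
    q0, ⟨⟨-1, 0⟩, ⟨0, 0⟩, ⟨-1, 1⟩, ⟨1, 0⟩⟩, ⟨⟨-1, 0⟩, ⟨1, 1⟩, ⟨-1, 1⟩, ⟨2, 0⟩⟩,
    q0, ⟨⟨2, 0⟩, ⟨-1, -1⟩, ⟨1, -1⟩, ⟨-2, 0⟩⟩, ⟨⟨2, 0⟩, ⟨-1, -1⟩, ⟨1, -1⟩, ⟨-1, 0⟩⟩,
    q0, ⟨⟨1, -1⟩, ⟨-2, 0⟩, ⟨-1, -1⟩, ⟨-1, 1⟩⟩, ⟨⟨0, 1⟩, ⟨1, 0⟩, ⟨1, 1⟩, ⟨1, -1⟩⟩,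
    ⟨⟨0, 1⟩, ⟨1, 0⟩, ⟨1, 0⟩, ⟨0, 0⟩⟩, ⟨⟨1, -1⟩, ⟨-2, 0⟩, ⟨0, -1⟩, ⟨-1, 1⟩⟩, q0,
    ⟨⟨-1, 0⟩, ⟨1, 0⟩, ⟨-1, 0⟩, ⟨0, 0⟩⟩, q0, ⟨⟨-1, 0⟩, ⟨1, 0⟩, ⟨0, 1⟩, ⟨1, -1⟩⟩,
    q0, ⟨⟨0, 1⟩, ⟨1, -1⟩, ⟨1, 1⟩, ⟨0, -1⟩⟩, ⟨⟨1, -1⟩, ⟨-1, 0⟩, ⟨-1, -1⟩, ⟨0, 1⟩⟩,
    ⟨⟨0, 1⟩, ⟨1, -1⟩, ⟨1, 0⟩, ⟨-1, -1⟩⟩, q0, ⟨⟨1, -1⟩, ⟨-1, 0⟩, ⟨0, -1⟩, ⟨-1, 0⟩⟩,
    ⟨⟨-1, 0⟩, ⟨0, 1⟩, ⟨-1, 0⟩, ⟨1, 1⟩⟩, ⟨⟨-1, 0⟩, ⟨0, 1⟩, ⟨0, 1⟩, ⟨1, 0⟩⟩, q0 ]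

/-- The lift of the matrix with given entries. -/
def liftQuad (a b c d : ZMod 3) : Quad :=
  liftTable.getD (27 * a.val + 9 * b.val + 3 * c.val + d.val) q0

theorem liftQuad_red : ∀ a b c d : ZMod 3, a * d - b * c ≠ 0 →
    ((liftQuad a b c d).e00.re : ZMod 3) - (liftQuad a b c d).e00.im = a ∧
    ((liftQuad a b c d).e01.re : ZMod 3) - (liftQuad a b c d).e01.im = b ∧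
    ((liftQuad a b c d).e10.re : ZMod 3) - (liftQuad a b c d).e10.im = c ∧
    ((liftQuad a b c d).e11.re : ZMod 3) - (liftQuad a b c d).e11.im = d := by
  decide +kernel

theorem liftQuad_mul : ∀ a b c d : ZMod 3, a * d - b * c ≠ 0 → ∀ a' b' c' d' : ZMod 3,
    a' * d' - b' * c' ≠ 0 →
    liftQuad (a * a' + b * c') (a * b' + b * d') (c * a' + d * c') (c * b' + d * d') =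
      (liftQuad a b c d).mulQ (liftQuad a' b' c' d') := by
  decide +kernel

theorem liftQuad_one : (liftQuad 1 0 0 1).toMat = 1 := by
  rw [show liftQuad 1 0 0 1 = ⟨1, 0, 0, 1⟩ by decide +kernel, Quad.toMat, Matrix.one_fin_two]

/-- The lift of an invertible matrix over `ZMod 3`, as a matrix. -/
def octMat (g : GL (Fin 2) (ZMod 3)) : Matrix (Fin 2) (Fin 2) (ℤ√(-2)) :=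
  (liftQuad (g 0 0) (g 0 1) (g 1 0) (g 1 1)).toMat

theorem det_entries_ne_zero (g : GL (Fin 2) (ZMod 3)) : g 0 0 * g 1 1 - g 0 1 * g 1 0 ≠ 0 := by
  haveI : Fact (Nat.Prime 3) := ⟨Nat.prime_three⟩
  have h : IsUnit (g : Matrix (Fin 2) (Fin 2) (ZMod 3)).det :=
    (Matrix.isUnit_iff_isUnit_det _).1 g.isUnit
  rw [Matrix.det_fin_two] at h
  exact h.ne_zero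

theorem octMat_one : octMat 1 = 1 := by
  simpa [octMat, Matrix.one_apply] using liftQuad_one

theorem octMat_mul (g h : GL (Fin 2) (ZMod 3)) : octMat (g * h) = octMat g * octMat h := by
  rw [octMat, octMat, octMat, ← Quad.toMat_mulQ,
    ← liftQuad_mul _ _ _ _ (det_entries_ne_zero g) _ _ _ _ (det_entries_ne_zero h)]
  simp [Units.val_mul, Matrix.mul_apply, Fin.sum_univ_two]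

/-- The octahedral lift `Ψ : GL₂(𝔽₃) → GL₂(ℤ[√-2])`. -/
def octLift : GL (Fin 2) (ZMod 3) →* GL (Fin 2) (ℤ√(-2)) where
  toFun g :=
    { val := octMat g
      inv := octMat g⁻¹
      val_inv := by rw [← octMat_mul, mul_inv_cancel, octMat_one]
      inv_val := by rw [← octMat_mul, inv_mul_cancel, octMat_one] }
  map_one' := Units.ext octMat_one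
  map_mul' g h := Units.ext (octMat_mul g h)

theorem red_apply (z : ℤ√(-2)) : red z = (z.re : ZMod 3) - z.im := by
  simp [red, Zsqrtd.lift]
  ring

theorem red_octLift (g : GL (Fin 2) (ZMod 3)) :
    Matrix.GeneralLinearGroup.map red (octLift g) = g := by
  obtain ⟨h00, h01, h10, h11⟩ :=
    liftQuad_red (g 0 0) (g 0 1) (g 1 0) (g 1 1) (det_entries_ne_zero g)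
  apply Units.ext
  ext i j
  fin_cases i <;> fin_cases j <;>
    simp [octLift, octMat, Quad.toMat, red_apply, Matrix.GeneralLinearGroup.map, h00, h01, h10, h11]

theorem sqrtTwoI_mul_self :
    ((Real.sqrt 2 : ℂ) * Complex.I) * ((Real.sqrt 2 : ℂ) * Complex.I) = ((-2 : ℤ) : ℂ) := by
  have h : (Real.sqrt 2 : ℂ) * Real.sqrt 2 = 2 := by
    rw [← Complex.ofReal_mul, Real.mul_self_sqrt zero_le_two]; simp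
  push_cast
  linear_combination (Real.sqrt 2 : ℂ) * Real.sqrt 2 * Complex.I_mul_I - h

/-- The embedding `√-2 ↦ i√2`. -/
def sqrtNegTwoC : ℤ√(-2) →+* ℂ := Zsqrtd.lift ⟨_, sqrtTwoI_mul_self⟩

/-- The octahedral representation `GL₂(𝔽₃) → GL₂(ℂ)`. -/
def octRep : GL (Fin 2) (ZMod 3) →* GL (Fin 2) ℂ :=
  (Matrix.GeneralLinearGroup.map sqrtNegTwoC).comp octLift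

end Fermat.Agent.LT
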