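/-
Galois data of the Langlands–Tunnell route: `ρ : Γℚ → GL₂(𝔽₃)`, its octahedral lift, the fields
`F = ℚ(√-3)` and `F' = F(∛Δ)`, and Frobenius elements over a subfield of `ℚ̄`.
-/
import Fermat.Agent.LT.Data.Lift
import Fermat.Agent.Galois.Decomposition
import Fermat.Prelude.Def_GaloisRep_ModThreeCyclotomic
import Fermat.Prelude.Def_GaloisRep_Residual
import Fermat.Prelude.Def_FLTPrelim_Modularity

set_option autoImplicit false

open Fermat.Agent.Galois WeierstrassCurve NumberField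
open scoped MatrixGroups

noncomputable section

namespace Fermat.Agent.LT

/-- Membership test for the quaternion subgroup of `SL₂(𝔽₃)`: determinant one, and trace `0`
or scalar. -/
def InQuat (a b c d : ZMod 3) : Prop :=
  a * d - b * c = 1 ∧ (a + d = 0 ∨ (b = 0 ∧ c = 0 ∧ a = d))

instance (a b c d : ZMod 3) : Decidable (InQuat a b c d) := by unfold InQuat; infer_instance

theorem inQuat_mul : ∀ a b c d : ZMod 3, InQuat a b c d → ∀ a' b' c' d' : ZMod 3,
    InQuat a' b' c' d' →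
    InQuat (a * a' + b * c') (a * b' + b * d') (c * a' + d * c') (c * b' + d * d') := by
  decide +kernel

theorem inQuat_pow_four : ∀ a b c d : ZMod 3, InQuat a b c d →
    (!![a, b; c, d] : Matrix (Fin 2) (Fin 2) (ZMod 3)) ^ 4 = 1 := by
  decide +kernel

/-- The quaternion subgroup `Q₈ ⊆ SL₂(𝔽₃) ⊆ GL₂(𝔽₃)`. -/
def quatSubgroup : Subgroup (GL (Fin 2) (ZMod 3)) :=
  Subgroup.copy
    (Subgroup.closure {g : GL (Fin 2) (ZMod 3) | InQuat (g 0 0) (g 0 1) (g 1 0) (g 1 1)})
    {g : GL (Fin 2) (ZMod 3) | InQuat (g 0 0) (g 0 1) (g 1 0) (g 1 1)} (by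
      refine Set.Subset.antisymm Subgroup.subset_closure ?_
      have hmul : ∀ g h : GL (Fin 2) (ZMod 3), InQuat (g 0 0) (g 0 1) (g 1 0) (g 1 1) →
          InQuat (h 0 0) (h 0 1) (h 1 0) (h 1 1) →
          InQuat ((g * h) 0 0) ((g * h) 0 1) ((g * h) 1 0) ((g * h) 1 1) := fun g h hg hh => by
        simpa [Units.val_mul, Matrix.mul_apply, Fin.sum_univ_two] using
          inQuat_mul _ _ _ _ hg _ _ _ _ hh
      intro g hg
      refine Subgroup.closure_induction (fun _ h => h) ?_ (fun x y _ _ hx hy => hmul x y hx hy)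
        ?_ hg
      · show InQuat _ _ _ _
        simp [InQuat, Matrix.one_apply]
      · intro x _ hx
        have h4 : x ^ 4 = 1 := Units.ext (by
          have := inQuat_pow_four _ _ _ _ hx
          rw [← Matrix.eta_fin_two (x : Matrix (Fin 2) (Fin 2) (ZMod 3))] at this
          simpa using this)
        rw [show x⁻¹ = x * x * x from inv_eq_of_mul_eq_one_right (by rw [← h4, pow_succ' x 3, pow_succ, pow_two])]
        exact hmul _ _ (hmul _ _ hx hx) hx)

theorem mem_quatSubgroup {g : GL (Fin 2) (ZMod 3)} :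
    g ∈ quatSubgroup ↔ InQuat (g 0 0) (g 0 1) (g 1 0) (g 1 1) := Iff.rfl

/-- The subgroup cutting out `F = ℚ(√-3)`. -/
def kerOmega : Subgroup GalQ := MonoidHom.ker modThreeCyclotomicChar

/-- The field `F = ℚ(√-3)` inside `ℚ̄`. -/
def fieldF : IntermediateField ℚ Qbar := IntermediateField.fixedField kerOmega

/-- The field `F' = F(∛Δ)`: the fixed field of the preimage of `Q₈`. -/
def fieldF' (ρ : GalQ →* GL (Fin 2) (ZMod 3)) : IntermediateField ℚ Qbar :=
  IntermediateField.fixedField (Subgroup.comap ρ quatSubgroup)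

/-- The trace of the octahedral lift of `ρ`. -/
def octTrace (ρ : GalQ →* GL (Fin 2) (ZMod 3)) (σ : GalQ) : ℂ :=
  ((octRep (ρ σ) : GL (Fin 2) ℂ) : Matrix (Fin 2) (Fin 2) ℂ).trace

/-- The valuation subring `A` lies over the place `v` of `K`. -/
def PlaceAbove (K : IntermediateField ℚ Qbar) (v : Ideal (𝓞 K))
    (A : ValuationSubring Qbar) : Prop :=
  ∀ x : 𝓞 K, x ∈ v ↔ (((x : K) : Qbar)) ∈ A.nonunits

/-- `σ` is a Frobenius element at the place `v` of `K`. -/
def IsFrobOver (K : IntermediateField ℚ Qbar) (v : Ideal (𝓞 K)) (σ : GalQ) : Prop :=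
  σ ∈ K.fixingSubgroup ∧ ∃ A : ValuationSubring Qbar, PlaceAbove K v A ∧
    σ ∈ A.decompositionSubgroup ℚ ∧
    ∀ x ∈ A, σ x - x ^ Nat.card (𝓞 K ⧸ v) ∈ A.nonunits

/-- The properties of the mod 3 representation of a semistable curve used by the LT route. -/
structure IsThreeRep (W : WeierstrassCurve ℤ) (ρ : GalQ →* GL (Fin 2) (ZMod 3)) : Prop where
  factors : GaloisFactorsThroughFiniteLevel ρ
  surjective : Function.Surjective ρ
  det : ∀ σ, Matrix.GeneralLinearGroup.det (ρ σ) = modThreeCyclotomicChar σ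
  /-- good primes other than 3 are unramified, with Frobenius trace `a_ℓ`. -/
  good : ∀ ℓ : ℕ, ℓ.Prime → W.IsGoodPrimeFor ℓ → ℓ ≠ 3 →
    ∀ A : ValuationSubring Qbar, A.LiesOverPrime ℓ →
      (∀ σ ∈ A.inertiaSubgroupIn ℚ, ρ σ = 1) ∧
      ∀ σ, A.IsFrobeniusAt σ ℓ →
        (ρ σ : Matrix (Fin 2) (Fin 2) (ZMod 3)).trace = (W.apOfModel ℓ : ZMod 3)
  /-- inertia is unipotent away from 3. -/
  unipotent : ∀ q : ℕ, q.Prime → q ≠ 3 → ∀ A : ValuationSubring Qbar, A.LiesOverPrime q →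
    ∀ σ ∈ A.inertiaSubgroupIn ℚ, ((ρ σ : Matrix (Fin 2) (Fin 2) (ZMod 3)) - 1) ^ 2 = 0
  /-- 3 splits completely in `F'/F`. -/
  split_three : ∀ A : ValuationSubring Qbar, A.LiesOverPrime 3 →
    ∀ σ ∈ A.decompositionSubgroup ℚ, modThreeCyclotomicChar σ = 1 → ρ σ ∈ quatSubgroup
  /-- at a multiplicative 3 the decomposition group of `F` acts by scalars `±1`. -/
  scalar_three : (3 : ℤ) ∣ W.Δ → ∀ A : ValuationSubring Qbar, A.LiesOverPrime 3 →
    ∀ σ ∈ A.decompositionSubgroup ℚ, modThreeCyclotomicChar σ = 1 →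
      (ρ σ : Matrix (Fin 2) (Fin 2) (ZMod 3)) = 1 ∨
        (ρ σ : Matrix (Fin 2) (Fin 2) (ZMod 3)) = -1
  /-- at a multiplicative 3 the inertia group of `F` acts trivially. -/
  unram_three : (3 : ℤ) ∣ W.Δ → ∀ A : ValuationSubring Qbar, A.LiesOverPrime 3 →
    ∀ σ ∈ A.inertiaSubgroupIn ℚ, modThreeCyclotomicChar σ = 1 → ρ σ = 1

theorem finiteDimensional_fixedField_of_le {H : Subgroup GalQ} {L : IntermediateField ℚ Qbar}
    [FiniteDimensional ℚ L] (h : L.fixingSubgroup ≤ H) :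
    FiniteDimensional ℚ (IntermediateField.fixedField H) := by
  have hle : IntermediateField.fixedField H ≤ L := by
    rw [← InfiniteGalois.fixedField_fixingSubgroup L]
    exact fun x hx g => hx ⟨g.1, h g.2⟩
  exact FiniteDimensional.of_injective (IntermediateField.inclusion hle).toLinearMap
    (IntermediateField.inclusion_injective hle)

theorem finiteDimensional_fieldF' {W : WeierstrassCurve ℤ} {ρ : GalQ →* GL (Fin 2) (ZMod 3)}
    (hρ : IsThreeRep W ρ) : FiniteDimensional ℚ (fieldF' ρ) := by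
  obtain ⟨L, hL, hker⟩ := hρ.factors
  haveI := hL
  refine finiteDimensional_fixedField_of_le (L := L) fun σ hσ => ?_
  show ρ σ ∈ quatSubgroup
  rw [hker σ ((IntermediateField.mem_fixingSubgroup_iff L σ).1 hσ)]
  exact one_mem _

theorem finiteDimensional_fieldF {W : WeierstrassCurve ℤ} {ρ : GalQ →* GL (Fin 2) (ZMod 3)}
    (hρ : IsThreeRep W ρ) : FiniteDimensional ℚ fieldF := by
  obtain ⟨L, hL, hker⟩ := hρ.factors
  haveI := hL
  refine finiteDimensional_fixedField_of_le (L := L) fun σ hσ => ?_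
  show modThreeCyclotomicChar σ = 1
  rw [← hρ.det, hker σ ((IntermediateField.mem_fixingSubgroup_iff L σ).1 hσ), map_one]

end Fermat.Agent.LT
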